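/-
Programme MW (S17), brick BR+a (helper34), file 1/3: **places of a function field versus
`K`-algebra homomorphisms `B → K` of a Dedekind chart ring** (pure algebra).

* `IsVal v f c` : `c : K` is the value of `f : F` at the place `v`, i.e. `f - c` lies in the maximal
  ideal of `O_v` (`IsVal.unique`, `IsVal.mem`, `.add`, `.mul`, `.inv`, `.pow`, `isVal_iff_ord`,
  `isVal_iff_residue`);
* for a Dedekind domain `B` with fraction field `F`, not a field, over `K`:
  `placeOfHom hB P : Place K F` for `P : B →ₐ[K] K` (the place centred at `ker P`), with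
  `isVal_placeOfHom : IsVal (placeOfHom hB P) b (P b)`, `placeOfHom_injective`;
  for `K` algebraically closed and `B` of finite type: `homOfPlace v hv : B →ₐ[K] K` for a place
  with `B ⊆ O_v`, `placeOfHom_homOfPlace`, `homOfPlace_placeOfHom`, `placeHomEquiv`;
* `placeOfHom_eq_of_isVal` : two chart rings `B`, `B'` and homomorphisms `P`, `P'` such that `P'`
  computes the values at `placeOfHom P` define the same place (overlap compatibility).
-/
import Mathlib
import Fermat.Agent.AV.F1Places21.Charts

set_option autoImplicit false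
set_option linter.unusedSectionVars false
set_option linter.style.haveILetI false

open AlgebraicCurve IsDedekindDomain IsLocalRing
open Fermat.Agent.X0.FF Fermat.Agent.X0.FFDedekind Fermat.Agent.AV.F1Places21.Charts

namespace Fermat.Agent.MW.Bridge34

variable {K F : Type*} [Field K] [Field F] [Algebra K F]

/-! ### Values at a place -/

/-- `c` is the value of `f` at the place `v`: `f ≡ c` modulo the maximal ideal of `O_v`. -/
def IsVal (v : Place K F) (f : F) (c : K) : Prop :=
  f - algebraMap K F c ∈ v.toValuationSubring.nonunits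

namespace IsVal

variable {v : Place K F} {f g : F} {c d : K}

theorem sub_mem (h : IsVal v f c) : f - algebraMap K F c ∈ v.toValuationSubring :=
  v.toValuationSubring.nonunits_le h

theorem mem (h : IsVal v f c) : f ∈ v.toValuationSubring := by
  have := add_mem h.sub_mem (v.algebraMap_mem' c)
  rwa [sub_add_cancel] at this

end IsVal

theorem isVal_iff_mem_maximalIdeal {v : Place K F} {f : F} {c : K} (hf : f ∈ v.toValuationSubring) :
    IsVal v f c ↔
      (⟨f, hf⟩ : v.toValuationSubring) - algebraMap K v.toValuationSubring c ∈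
        maximalIdeal v.toValuationSubring := by
  rw [← ValuationSubring.coe_mem_nonunits_iff]
  rfl

theorem isVal_algebraMap (v : Place K F) (c : K) : IsVal v (algebraMap K F c) c := by
  unfold IsVal
  rw [sub_self, ValuationSubring.mem_nonunits_iff, map_zero]
  exact zero_lt_one

/-- A constant in the maximal ideal of a place is zero. -/
theorem eq_zero_of_algebraMap_mem_nonunits (v : Place K F) {c : K}
    (h : algebraMap K F c ∈ v.toValuationSubring.nonunits) : c = 0 := by
  by_contra hc
  have h1 : (algebraMap K F c)⁻¹ ∈ v.toValuationSubring := by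
    rw [← map_inv₀]
    exact v.algebraMap_mem' c⁻¹
  rw [ValuationSubring.mem_nonunits_iff] at h
  have h2 := (v.toValuationSubring.valuation_le_one_iff _).mpr h1
  rw [map_inv₀] at h2
  have h3 : v.toValuationSubring.valuation (algebraMap K F c) ≠ 0 :=
    (Valuation.ne_zero_iff _).mpr ((map_ne_zero_iff _ (algebraMap K F).injective).mpr hc)
  have h4 : (1 : _) ≤ v.toValuationSubring.valuation (algebraMap K F c) := by
    rwa [inv_le_one₀ (zero_lt_iff.mpr h3)] at h2
  exact absurd h (not_lt.mpr h4)

namespace IsVal

variable {v : Place K F} {f g : F} {c d : K}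

/-- The value at a place is unique. -/
theorem unique (h : IsVal v f c) (h' : IsVal v f d) : c = d := by
  have hf := h.mem
  rw [isVal_iff_mem_maximalIdeal hf] at h h'
  have h1 := (maximalIdeal v.toValuationSubring).sub_mem h' h
  have h2 : ((⟨f, hf⟩ : v.toValuationSubring) - algebraMap K v.toValuationSubring d) -
      ((⟨f, hf⟩ : v.toValuationSubring) - algebraMap K v.toValuationSubring c) =
      algebraMap K v.toValuationSubring (c - d) := by
    rw [map_sub]; ring
  rw [h2, ← ValuationSubring.coe_mem_nonunits_iff, v.coe_algebraMap] at h1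
  exact sub_eq_zero.mp (eq_zero_of_algebraMap_mem_nonunits v h1)

theorem add (h : IsVal v f c) (h' : IsVal v g d) : IsVal v (f + g) (c + d) := by
  have hf := h.mem
  have hg := h'.mem
  rw [isVal_iff_mem_maximalIdeal hf] at h
  rw [isVal_iff_mem_maximalIdeal hg] at h'
  rw [isVal_iff_mem_maximalIdeal (add_mem hf hg)]
  have := (maximalIdeal v.toValuationSubring).add_mem h h'
  convert this using 1
  rw [map_add]
  apply Subtype.ext
  push_cast
  ring

theorem mul (h : IsVal v f c) (h' : IsVal v g d) : IsVal v (f * g) (c * d) := by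
  have hf := h.mem
  have hg := h'.mem
  rw [isVal_iff_mem_maximalIdeal hf] at h
  rw [isVal_iff_mem_maximalIdeal hg] at h'
  rw [isVal_iff_mem_maximalIdeal (mul_mem hf hg)]
  have h1 := (maximalIdeal v.toValuationSubring).mul_mem_right (⟨g, hg⟩ : v.toValuationSubring) h
  have h2 := (maximalIdeal v.toValuationSubring).mul_mem_left
    (algebraMap K v.toValuationSubring c) h'
  have := (maximalIdeal v.toValuationSubring).add_mem h1 h2
  convert this using 1
  rw [map_mul]
  apply Subtype.ext
  push_cast
  ring

theorem one : IsVal v (1 : F) (1 : K) := by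
  have := isVal_algebraMap v (1 : K)
  rwa [map_one] at this

theorem pow (h : IsVal v f c) (n : ℕ) : IsVal v (f ^ n) (c ^ n) := by
  induction n with
  | zero => rw [pow_zero, pow_zero]; exact one
  | succ n ih => rw [pow_succ, pow_succ]; exact ih.mul h

/-- An element with nonzero value is a unit of `O_v`. -/
theorem inv_mem (h : IsVal v f c) (hc : c ≠ 0) : f⁻¹ ∈ v.toValuationSubring := by
  by_contra hinv
  have hf := h.mem
  -- `f` is then a nonunit, so `c = f - (f - c)` is a nonunit constant
  have hfn : f ∈ v.toValuationSubring.nonunits := by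
    rw [ValuationSubring.mem_nonunits_iff]
    by_contra hlt
    have h1 : v.toValuationSubring.valuation f = 1 :=
      le_antisymm ((v.toValuationSubring.valuation_le_one_iff _).mpr hf) (not_lt.mp hlt)
    apply hinv
    rw [← ValuationSubring.valuation_le_one_iff, map_inv₀, h1, inv_one]
  have h2 : (⟨f, hf⟩ : v.toValuationSubring) ∈ maximalIdeal v.toValuationSubring := by
    rwa [← ValuationSubring.coe_mem_nonunits_iff]
  rw [isVal_iff_mem_maximalIdeal hf] at h
  have h3 := (maximalIdeal v.toValuationSubring).sub_mem h2 h
  rw [sub_sub_cancel, ← ValuationSubring.coe_mem_nonunits_iff, v.coe_algebraMap] at h3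
  exact hc (eq_zero_of_algebraMap_mem_nonunits v h3)

theorem inv (h : IsVal v f c) (hc : c ≠ 0) : IsVal v f⁻¹ c⁻¹ := by
  have hf := h.mem
  have hfi := h.inv_mem hc
  have hf0 : f ≠ 0 := by
    rintro rfl
    have := h.unique (by simpa using isVal_algebraMap v (0 : K))
    exact hc this
  rw [isVal_iff_mem_maximalIdeal hf] at h
  rw [isVal_iff_mem_maximalIdeal hfi]
  have h1 := (maximalIdeal v.toValuationSubring).mul_mem_left
    (-(⟨f⁻¹, hfi⟩ * algebraMap K v.toValuationSubring c⁻¹) : v.toValuationSubring) h
  convert h1 using 1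
  apply Subtype.ext
  push_cast
  rw [v.coe_algebraMap, v.coe_algebraMap, map_inv₀]
  have hc' : algebraMap K F c ≠ 0 := (map_ne_zero_iff _ (algebraMap K F).injective).mpr hc
  field_simp
  ring

/-- A nonzero element vanishing at `v` has its inverse outside `O_v`. -/
theorem inv_not_mem (h : IsVal v f 0) (hf : f ≠ 0) : f⁻¹ ∉ v.toValuationSubring := by
  intro hinv
  have h1 : f ∈ v.toValuationSubring.nonunits := by
    unfold IsVal at h
    rwa [map_zero, sub_zero] at h
  rw [ValuationSubring.mem_nonunits_iff] at h1
  have h2 := (v.toValuationSubring.valuation_le_one_iff _).mpr hinv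
  rw [map_inv₀] at h2
  have h3 : v.toValuationSubring.valuation f ≠ 0 := (Valuation.ne_zero_iff _).mpr hf
  have h4 : (1 : _) ≤ v.toValuationSubring.valuation f := by
    rwa [inv_le_one₀ (zero_lt_iff.mpr h3)] at h2
  exact absurd h1 (not_lt.mpr h4)

end IsVal

theorem isVal_iff_ord {v : Place K F} {f : F} {c : K} :
    IsVal v f c ↔ f = algebraMap K F c ∨ 0 < v.ord (f - algebraMap K F c) := by
  constructor
  · intro h
    by_cases h0 : f = algebraMap K F c
    · exact Or.inl h0
    right
    have hmem := h.sub_mem
    have hne : (⟨f - algebraMap K F c, hmem⟩ : v.toValuationSubring) ≠ 0 := by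
      intro h1
      exact h0 (sub_eq_zero.mp (congrArg Subtype.val h1))
    have h2 : (⟨f - algebraMap K F c, hmem⟩ : v.toValuationSubring) ∈
        maximalIdeal v.toValuationSubring := by
      rw [← ValuationSubring.coe_mem_nonunits_iff]
      exact h
    exact (ffp_mem_maximalIdeal_iff v _ hne).mp h2
  · rintro (h | h)
    · rw [h]
      exact isVal_algebraMap v c
    · have hmem : f - algebraMap K F c ∈ v.toValuationSubring :=
        ffp_mem_of_ord_nonneg v h.le
      have hne : (⟨f - algebraMap K F c, hmem⟩ : v.toValuationSubring) ≠ 0 := by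
        intro h1
        have h2 : f - algebraMap K F c = 0 := congrArg Subtype.val h1
        rw [h2, v.ord_zero] at h
        exact lt_irrefl _ h
      have := (ffp_mem_maximalIdeal_iff v _ hne).mpr h
      rw [← ValuationSubring.coe_mem_nonunits_iff] at this
      exact this

/-- The value in terms of the residue field of the Prelude. -/
theorem isVal_iff_residue {v : Place K F} {f : F} {c : K} (hf : f ∈ v.toValuationSubring) :
    IsVal v f c ↔
      IsLocalRing.residue v.toValuationSubring ⟨f, hf⟩ = algebraMap K v.ResidueField c := by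
  rw [isVal_iff_mem_maximalIdeal hf, ← IsLocalRing.residue_eq_zero_iff, map_sub, sub_eq_zero]
  rfl

/-! ### Places and `K`-algebra homomorphisms of a Dedekind chart ring -/

section Chart

variable {B : Type*} [CommRing B] [IsDedekindDomain B] [Algebra B F] [IsFractionRing B F]
  [Algebra K B] [IsScalarTower K B F]

theorem algHom_surjective (P : B →ₐ[K] K) : Function.Surjective P := fun a =>
  ⟨algebraMap K B a, P.commutes a⟩

theorem ker_ne_bot (hB : ¬ IsField B) (P : B →ₐ[K] K) : RingHom.ker P ≠ ⊥ := by
  intro h
  have hinj : Function.Injective P := (RingHom.injective_iff_ker_eq_bot (P : B →+* K)).mpr h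
  exact hB ((RingEquiv.ofBijective (P : B →+* K) ⟨hinj, algHom_surjective P⟩).toMulEquiv.isField
    (Field.toIsField K))

/-- The height one prime `ker P`. -/
def kerSpec (hB : ¬ IsField B) (P : B →ₐ[K] K) : HeightOneSpectrum B :=
  ⟨RingHom.ker P, RingHom.ker_isPrime _, ker_ne_bot hB P⟩

@[simp] theorem kerSpec_asIdeal (hB : ¬ IsField B) (P : B →ₐ[K] K) :
    (kerSpec hB P).asIdeal = RingHom.ker P := rfl

/-- **The place of `F` centred at the kernel of `P : B →ₐ[K] K`.** -/
noncomputable def placeOfHom (hB : ¬ IsField B) (P : B →ₐ[K] K) : Place K F :=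
  Place.ofHeightOneSpectrum (K := K) (F := F) (kerSpec hB P)

theorem algebraMap_mem_placeOfHom (hB : ¬ IsField B) (P : B →ₐ[K] K) (b : B) :
    algebraMap B F b ∈ (placeOfHom (F := F) hB P).toValuationSubring :=
  algebraMap_mem_ofHeightOneSpectrum (kerSpec hB P) b

theorem centre_placeOfHom (hB : ¬ IsField B) (P : B →ₐ[K] K) :
    centre (placeOfHom (F := F) hB P) (algebraMap_mem_placeOfHom hB P) = RingHom.ker P :=
  congrArg HeightOneSpectrum.asIdeal (centreSpec_ofHeightOneSpectrum (K := K) (F := F) (kerSpec hB P))

/-- For a place `v` with `B ⊆ O_v`: `b` lies in the centre iff its image is a nonunit of `O_v`. -/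
theorem mem_centre_iff_mem_nonunits (v : Place K F)
    (hv : ∀ b : B, algebraMap B F b ∈ v.toValuationSubring) (b : B) :
    b ∈ centre v hv ↔ algebraMap B F b ∈ v.toValuationSubring.nonunits := by
  rw [centre, Ideal.mem_comap, ← ValuationSubring.coe_mem_nonunits_iff,
    coe_toValuationSubringHom]

/-- **`P` computes the values at its place.** -/
theorem isVal_placeOfHom (hB : ¬ IsField B) (P : B →ₐ[K] K) (b : B) :
    IsVal (placeOfHom (F := F) hB P) (algebraMap B F b) (P b) := by
  have h1 : b - algebraMap K B (P b) ∈ RingHom.ker P := by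
    rw [RingHom.mem_ker, map_sub, AlgHom.commutes]
    exact sub_self _
  rw [← centre_placeOfHom (F := F) hB P, mem_centre_iff_mem_nonunits, map_sub,
    ← IsScalarTower.algebraMap_apply] at h1
  exact h1

/-- Two `K`-algebra homomorphisms to `K` with the same kernel are equal. -/
theorem algHom_ext_of_ker_eq {P P' : B →ₐ[K] K} (h : RingHom.ker P = RingHom.ker P') :
    P = P' := by
  ext b
  have h1 : b - algebraMap K B (P b) ∈ RingHom.ker P := by
    rw [RingHom.mem_ker, map_sub, AlgHom.commutes]
    exact sub_self _
  rw [h, RingHom.mem_ker, map_sub, AlgHom.commutes, sub_eq_zero] at h1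
  exact h1.symm

theorem placeOfHom_injective (hB : ¬ IsField B) :
    Function.Injective (placeOfHom (K := K) (F := F) (B := B) hB) := by
  intro P P' h
  have h1 := ofHeightOneSpectrum_injective (K := K) (F := F) h
  exact algHom_ext_of_ker_eq (congrArg HeightOneSpectrum.asIdeal h1)

/-- A place with `B ⊆ O_v` and centre `ker P` is the place of `P`. -/
theorem eq_placeOfHom_of_centre_eq (hB : ¬ IsField B) (P : B →ₐ[K] K) (v : Place K F)
    (hv : ∀ b : B, algebraMap B F b ∈ v.toValuationSubring)
    (hc : centre v hv = RingHom.ker P) : v = placeOfHom hB P := by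
  rw [← ofHeightOneSpectrum_centreSpec v hv]
  unfold placeOfHom
  congr 1
  exact HeightOneSpectrum.ext hc

/-- A place all of whose values on `B` are computed by `P` is the place of `P`. -/
theorem eq_placeOfHom_of_isVal (hB : ¬ IsField B) (P : B →ₐ[K] K) (v : Place K F)
    (hval : ∀ b : B, IsVal v (algebraMap B F b) (P b)) : v = placeOfHom hB P := by
  have hv : ∀ b : B, algebraMap B F b ∈ v.toValuationSubring := fun b => (hval b).mem
  refine eq_placeOfHom_of_centre_eq hB P v hv ?_
  ext b
  rw [mem_centre_iff_mem_nonunits, RingHom.mem_ker]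
  constructor
  · intro h
    have h0 : IsVal v (algebraMap B F b) 0 := by
      unfold IsVal
      rwa [map_zero, sub_zero]
    exact (hval b).unique h0
  · intro h
    have := hval b
    rw [h] at this
    unfold IsVal at this
    rwa [map_zero, sub_zero] at this

/-- **Overlap compatibility.**  If `P' : B' →ₐ[K] K` computes the values on `B'` at the place of
`P : B →ₐ[K] K`, the two homomorphisms define the same place. -/
theorem placeOfHom_eq_of_isVal {B' : Type*} [CommRing B'] [IsDedekindDomain B'] [Algebra B' F]
    [IsFractionRing B' F] [Algebra K B'] [IsScalarTower K B' F] (hB : ¬ IsField B)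
    (hB' : ¬ IsField B') (P : B →ₐ[K] K) (P' : B' →ₐ[K] K)
    (hval : ∀ b : B', IsVal (placeOfHom (F := F) hB P) (algebraMap B' F b) (P' b)) :
    placeOfHom (F := F) hB P = placeOfHom hB' P' :=
  eq_placeOfHom_of_isVal hB' P' _ hval

section AlgClosed

variable [IsAlgClosed K] [Algebra.FiniteType K B]

theorem centre_isMaximal (v : Place K F)
    (hv : ∀ b : B, algebraMap B F b ∈ v.toValuationSubring) : (centre v hv).IsMaximal :=
  (centre_isPrime v hv).isMaximal (centre_ne_bot v hv)

/-- **The residue homomorphism `B → K` of a place with `B ⊆ O_v`** (`K` algebraically closed,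
`B` of finite type). -/
noncomputable def homOfPlace (v : Place K F)
    (hv : ∀ b : B, algebraMap B F b ∈ v.toValuationSubring) : B →ₐ[K] K :=
  haveI := centre_isMaximal v hv
  ((AlgEquiv.ofBijective (Algebra.ofId K (B ⧸ centre v hv))
    (bijective_algebraMap_quotient_of_finiteType (centre v hv))).symm :
      (B ⧸ centre v hv) →ₐ[K] K).comp (Ideal.Quotient.mkₐ K (centre v hv))

theorem ker_homOfPlace (v : Place K F)
    (hv : ∀ b : B, algebraMap B F b ∈ v.toValuationSubring) :
    RingHom.ker (homOfPlace v hv) = centre v hv := by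
  haveI := centre_isMaximal v hv
  ext b
  rw [RingHom.mem_ker]
  have h : homOfPlace v hv b =
      (AlgEquiv.ofBijective (Algebra.ofId K (B ⧸ centre v hv))
        (bijective_algebraMap_quotient_of_finiteType (centre v hv))).symm
          (Ideal.Quotient.mk (centre v hv) b) := rfl
  rw [h, map_eq_zero_iff _ (AlgEquiv.injective _), Ideal.Quotient.eq_zero_iff_mem]

theorem placeOfHom_homOfPlace (hB : ¬ IsField B) (v : Place K F)
    (hv : ∀ b : B, algebraMap B F b ∈ v.toValuationSubring) :
    placeOfHom hB (homOfPlace v hv) = v :=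
  (eq_placeOfHom_of_centre_eq hB _ v hv (ker_homOfPlace v hv).symm).symm

theorem homOfPlace_placeOfHom (hB : ¬ IsField B) (P : B →ₐ[K] K) :
    homOfPlace (placeOfHom (F := F) hB P) (algebraMap_mem_placeOfHom hB P) = P :=
  placeOfHom_injective (F := F) hB (placeOfHom_homOfPlace hB _ _)

theorem isVal_homOfPlace (hB : ¬ IsField B) (v : Place K F)
    (hv : ∀ b : B, algebraMap B F b ∈ v.toValuationSubring) (b : B) :
    IsVal v (algebraMap B F b) (homOfPlace v hv b) := by
  have := isVal_placeOfHom (F := F) hB (homOfPlace v hv) b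
  rwa [placeOfHom_homOfPlace hB v hv] at this

/-- **Places with `B ⊆ O_v` ≃ `K`-algebra homomorphisms `B → K`.** -/
noncomputable def placeHomEquiv (hB : ¬ IsField B) :
    (B →ₐ[K] K) ≃ {v : Place K F // ∀ b : B, algebraMap B F b ∈ v.toValuationSubring} where
  toFun P := ⟨placeOfHom hB P, algebraMap_mem_placeOfHom hB P⟩
  invFun v := homOfPlace v.1 v.2
  left_inv P := homOfPlace_placeOfHom hB P
  right_inv v := Subtype.ext (placeOfHom_homOfPlace hB v.1 v.2)

end AlgClosed

end Chart

end Fermat.Agent.MW.Bridge34
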