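/-
Programme MW (S17), brick BR+a (helper34), file 2/3: **the places of a function field in terms of
a chart algebra** `alg : ChartAlg K F` (helper15's F1 interface), `K` algebraically closed.

* `place0 alg P0`, `place1 alg P1` : the place attached to `P0 : alg.B0 →ₐ[K] K`, resp.
  `P1 : alg.B1 →ₐ[K] K`; `isVal_place0`, `isVal_place1` (the homomorphism computes the values);
* `place0_eq_place1_of_overlap` : if `P0`, `P1` are the restrictions of one `P01 : alg.B01 →ₐ[K] K`
  they define the same place;
* `t_mem_place0`, `t_mem_place1_iff : alg.t ∈ O_(place1 P1) ↔ P1 s ≠ 0` (`s = 1/t`);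
* `hom0 alg v ht`, `hom1 alg v hs` : the residue homomorphisms of a place in a chart;
* `chartPlaceEquiv alg : (alg.B0 →ₐ[K] K) ⊕ {P1 : alg.B1 →ₐ[K] K // P1 s = 0} ≃ Place K F`.
-/
import Mathlib
import Fermat.Agent.AV.F1Model15.AssemblyAlg
import Fermat.Agent.MW.Bridge34.PlaceHom

set_option autoImplicit false
set_option linter.unusedSectionVars false
set_option linter.style.haveILetI false

open AlgebraicCurve IsDedekindDomain IsLocalRing
open Fermat.Agent.X0.FF Fermat.Agent.X0.FFDedekind Fermat.Agent.AV.F1Places21.Charts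
open Fermat.Agent.AV.F1Model15

universe u

namespace Fermat.Agent.MW.Bridge34

variable {K F : Type u} [Field K] [Field F] [Algebra K F] (alg : ChartAlg K F)

instance instDedekindB0 : IsDedekindDomain alg.B0 := alg.dedekind0
instance instDedekindB1 : IsDedekindDomain alg.B1 := alg.dedekind1
instance instFracB0 : IsFractionRing alg.B0 F := alg.frac0
instance instFracB1 : IsFractionRing alg.B1 F := alg.frac1
instance instFiniteTypeB0 : Algebra.FiniteType K alg.B0 := alg.finiteType0
instance instFiniteTypeB1 : Algebra.FiniteType K alg.B1 := alg.finiteType1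

attribute [local instance] ChartAlg.algebra0 ChartAlg.algebra1

@[simp] theorem coe_t0 : ((alg.t0 : alg.B0) : F) = alg.t := rfl
@[simp] theorem coe_s1 : ((alg.s1 : alg.B1) : F) = alg.t⁻¹ := rfl

/-- `B0 ⊆ O_v` as soon as `t ∈ O_v`. -/
theorem B0_le_of_t_mem (v : Place K F) (ht : alg.t ∈ v.toValuationSubring) (b : alg.B0) :
    algebraMap alg.B0 F b ∈ v.toValuationSubring :=
  intRing_le_of_mem v ht ⟨(b : F), (alg.mem0_iff b).mp b.2⟩

/-- `B1 ⊆ O_v` as soon as `t⁻¹ ∈ O_v`. -/
theorem B1_le_of_inv_mem (v : Place K F) (hs : alg.t⁻¹ ∈ v.toValuationSubring) (b : alg.B1) :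
    algebraMap alg.B1 F b ∈ v.toValuationSubring :=
  intRing_le_of_mem v hs ⟨(b : F), (alg.mem1_iff b).mp b.2⟩

/-- The place attached to a `K`-point of the first chart. -/
noncomputable def place0 (P0 : alg.B0 →ₐ[K] K) : Place K F := placeOfHom alg.not_isField_B0 P0

/-- The place attached to a `K`-point of the second chart. -/
noncomputable def place1 (P1 : alg.B1 →ₐ[K] K) : Place K F := placeOfHom alg.not_isField_B1 P1

theorem isVal_place0 (P0 : alg.B0 →ₐ[K] K) (b : alg.B0) : IsVal (place0 alg P0) (b : F) (P0 b) :=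
  isVal_placeOfHom alg.not_isField_B0 P0 b

theorem isVal_place1 (P1 : alg.B1 →ₐ[K] K) (b : alg.B1) : IsVal (place1 alg P1) (b : F) (P1 b) :=
  isVal_placeOfHom alg.not_isField_B1 P1 b

theorem place0_injective : Function.Injective (place0 alg) :=
  placeOfHom_injective alg.not_isField_B0

theorem place1_injective : Function.Injective (place1 alg) :=
  placeOfHom_injective alg.not_isField_B1

theorem t_mem_place0 (P0 : alg.B0 →ₐ[K] K) : alg.t ∈ (place0 alg P0).toValuationSubring :=
  (isVal_place0 alg P0 alg.t0).mem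

theorem inv_mem_place1 (P1 : alg.B1 →ₐ[K] K) : alg.t⁻¹ ∈ (place1 alg P1).toValuationSubring :=
  (isVal_place1 alg P1 alg.s1).mem

/-- A place in the second chart lies in the first chart iff `s = 1/t` does not vanish at it. -/
theorem t_mem_place1_iff (P1 : alg.B1 →ₐ[K] K) :
    alg.t ∈ (place1 alg P1).toValuationSubring ↔ P1 alg.s1 ≠ 0 := by
  have hv := isVal_place1 alg P1 alg.s1
  rw [coe_s1] at hv
  constructor
  · intro ht h0
    rw [h0] at hv
    have := hv.inv_not_mem (inv_ne_zero alg.t_ne_zero)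
    rw [inv_inv] at this
    exact this ht
  · intro h0
    have := hv.inv_mem h0
    rwa [inv_inv] at this

/-- A place in the first chart lies in the second chart iff `t` does not vanish at it. -/
theorem inv_mem_place0_iff (P0 : alg.B0 →ₐ[K] K) :
    alg.t⁻¹ ∈ (place0 alg P0).toValuationSubring ↔ P0 alg.t0 ≠ 0 := by
  have hv := isVal_place0 alg P0 alg.t0
  rw [coe_t0] at hv
  constructor
  · intro ht h0
    rw [h0] at hv
    exact hv.inv_not_mem alg.t_ne_zero ht
  · intro h0
    exact hv.inv_mem h0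

/-- **Overlap compatibility**: restrictions of one `K`-point of `B01` define the same place. -/
theorem place0_eq_place1_of_overlap (P0 : alg.B0 →ₐ[K] K) (P1 : alg.B1 →ₐ[K] K)
    (P01 : alg.B01 →ₐ[K] K) (h0 : ∀ b, P01 (Subalgebra.inclusion alg.le0 b) = P0 b)
    (h1 : ∀ b, P01 (Subalgebra.inclusion alg.le1 b) = P1 b) :
    place0 alg P0 = place1 alg P1 := by
  refine placeOfHom_eq_of_isVal alg.not_isField_B0 alg.not_isField_B1 P0 P1 fun b1 => ?_
  show IsVal (place0 alg P0) (b1 : F) (P1 b1)
  -- `P0 t ≠ 0`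
  have hts : Subalgebra.inclusion alg.le0 alg.t0 * Subalgebra.inclusion alg.le1 alg.s1 =
      (1 : alg.B01) := Subtype.ext (mul_inv_cancel₀ alg.t_ne_zero)
  have ht0 : P0 alg.t0 ≠ 0 := by
    intro h
    have := congrArg P01 hts
    rw [map_mul, h0, h, zero_mul, map_one] at this
    exact zero_ne_one this
  -- write `b1 = a / t ^ n`
  haveI haw : IsLocalization (Submonoid.powers alg.t0) alg.B01 := alg.away0
  obtain ⟨⟨a, ⟨_, n, rfl⟩⟩, hz⟩ :=
    IsLocalization.surj (Submonoid.powers alg.t0) (Subalgebra.inclusion alg.le1 b1)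
  have hz' : Subalgebra.inclusion alg.le1 b1 * Subalgebra.inclusion alg.le0 (alg.t0 ^ n) =
      Subalgebra.inclusion alg.le0 a := hz
  have hF : (b1 : F) * alg.t ^ n = (a : F) := by
    have := congrArg (fun z : alg.B01 => (z : F)) hz'
    simpa using this
  have hP : P1 b1 * P0 alg.t0 ^ n = P0 a := by
    have := congrArg P01 hz'
    rwa [map_mul, h1, h0, h0, map_pow] at this
  have hpow : P0 alg.t0 ^ n ≠ 0 := pow_ne_zero n ht0
  have hva := isVal_place0 alg P0 a
  have hvt := (isVal_place0 alg P0 alg.t0).pow n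
  rw [coe_t0] at hvt
  have hb : (b1 : F) = (a : F) * (alg.t ^ n)⁻¹ := by
    rw [← hF, mul_assoc, mul_inv_cancel₀ (pow_ne_zero n alg.t_ne_zero), mul_one]
  have hc : P1 b1 = P0 a * (P0 alg.t0 ^ n)⁻¹ := by
    rw [← hP, mul_assoc, mul_inv_cancel₀ hpow, mul_one]
  rw [hb, hc]
  exact hva.mul (hvt.inv hpow)

section AlgClosed

variable [IsAlgClosed K]

/-- The residue homomorphism on `B0` of a place at which `t` is regular. -/
noncomputable def hom0 (v : Place K F) (ht : alg.t ∈ v.toValuationSubring) : alg.B0 →ₐ[K] K :=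
  homOfPlace v (B0_le_of_t_mem alg v ht)

/-- The residue homomorphism on `B1` of a place at which `1/t` is regular. -/
noncomputable def hom1 (v : Place K F) (hs : alg.t⁻¹ ∈ v.toValuationSubring) : alg.B1 →ₐ[K] K :=
  homOfPlace v (B1_le_of_inv_mem alg v hs)

theorem place0_hom0 (v : Place K F) (ht : alg.t ∈ v.toValuationSubring) :
    place0 alg (hom0 alg v ht) = v :=
  placeOfHom_homOfPlace alg.not_isField_B0 v _

theorem place1_hom1 (v : Place K F) (hs : alg.t⁻¹ ∈ v.toValuationSubring) :
    place1 alg (hom1 alg v hs) = v :=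
  placeOfHom_homOfPlace alg.not_isField_B1 v _

theorem hom0_place0 (P0 : alg.B0 →ₐ[K] K) :
    hom0 alg (place0 alg P0) (t_mem_place0 alg P0) = P0 :=
  place0_injective alg (place0_hom0 alg _ _)

theorem hom1_place1 (P1 : alg.B1 →ₐ[K] K) :
    hom1 alg (place1 alg P1) (inv_mem_place1 alg P1) = P1 :=
  place1_injective alg (place1_hom1 alg _ _)

theorem isVal_hom0 (v : Place K F) (ht : alg.t ∈ v.toValuationSubring) (b : alg.B0) :
    IsVal v (b : F) (hom0 alg v ht b) :=
  isVal_homOfPlace alg.not_isField_B0 v _ b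

theorem isVal_hom1 (v : Place K F) (hs : alg.t⁻¹ ∈ v.toValuationSubring) (b : alg.B1) :
    IsVal v (b : F) (hom1 alg v hs b) :=
  isVal_homOfPlace alg.not_isField_B1 v _ b

/-- At a place where `t` is not regular, `s = 1/t` vanishes. -/
theorem hom1_s1_eq_zero (v : Place K F) (ht : alg.t ∉ v.toValuationSubring)
    (hs : alg.t⁻¹ ∈ v.toValuationSubring) : hom1 alg v hs alg.s1 = 0 := by
  by_contra h0
  apply ht
  have h := (t_mem_place1_iff alg (hom1 alg v hs)).mpr h0
  rwa [place1_hom1] at h

open Classical in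
/-- The chart description of a place: its residue homomorphism on `B0` if `t` is regular at it,
on `B1` otherwise. -/
noncomputable def placeToChart (v : Place K F) :
    (alg.B0 →ₐ[K] K) ⊕ {P1 : alg.B1 →ₐ[K] K // P1 alg.s1 = 0} :=
  if ht : alg.t ∈ v.toValuationSubring then Sum.inl (hom0 alg v ht)
  else
    have hs : alg.t⁻¹ ∈ v.toValuationSubring :=
      (v.toValuationSubring.mem_or_inv_mem alg.t).resolve_left ht
    Sum.inr ⟨hom1 alg v hs, hom1_s1_eq_zero alg v ht hs⟩

theorem placeToChart_of_mem (v : Place K F) (ht : alg.t ∈ v.toValuationSubring) :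
    placeToChart alg v = Sum.inl (hom0 alg v ht) := by
  unfold placeToChart
  rw [dif_pos ht]

theorem placeToChart_of_not_mem (v : Place K F) (ht : alg.t ∉ v.toValuationSubring) :
    placeToChart alg v = Sum.inr ⟨hom1 alg v
      ((v.toValuationSubring.mem_or_inv_mem alg.t).resolve_left ht),
      hom1_s1_eq_zero alg v ht _⟩ := by
  unfold placeToChart
  rw [dif_neg ht]

/-- **The places of `F` are the `K`-points of `Spec B0` together with the `K`-points of `Spec B1`
at which `s = 1/t` vanishes.** -/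
noncomputable def chartPlaceEquiv :
    (alg.B0 →ₐ[K] K) ⊕ {P1 : alg.B1 →ₐ[K] K // P1 alg.s1 = 0} ≃ Place K F where
  toFun := Sum.elim (place0 alg) (fun P1 => place1 alg P1.1)
  invFun := placeToChart alg
  left_inv := by
    rintro (P0 | ⟨P1, hP1⟩)
    · show placeToChart alg (place0 alg P0) = Sum.inl P0
      rw [placeToChart_of_mem alg _ (t_mem_place0 alg P0), hom0_place0]
    · show placeToChart alg (place1 alg P1) = Sum.inr ⟨P1, hP1⟩
      have ht : alg.t ∉ (place1 alg P1).toValuationSubring := by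
        rw [t_mem_place1_iff, not_not]
        exact hP1
      rw [placeToChart_of_not_mem alg _ ht]
      congr 1
      exact Subtype.ext (hom1_place1 alg P1)
  right_inv := by
    intro v
    by_cases ht : alg.t ∈ v.toValuationSubring
    · rw [placeToChart_of_mem alg v ht]
      exact place0_hom0 alg v ht
    · rw [placeToChart_of_not_mem alg v ht]
      exact place1_hom1 alg v ((v.toValuationSubring.mem_or_inv_mem alg.t).resolve_left ht)

@[simp] theorem chartPlaceEquiv_inl (P0 : alg.B0 →ₐ[K] K) :
    chartPlaceEquiv alg (Sum.inl P0) = place0 alg P0 := rfl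

@[simp] theorem chartPlaceEquiv_inr (P1 : {P1 : alg.B1 →ₐ[K] K // P1 alg.s1 = 0}) :
    chartPlaceEquiv alg (Sum.inr P1) = place1 alg P1.1 := rfl

end AlgClosed

end Fermat.Agent.MW.Bridge34
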