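/-
Programme MW (S17), brick BR+a (helper34), file 3/3: **`K`-points of the model curve of a function
field versus places**, and **values of chart functions at `K`-points = values at places**.

`K` algebraically closed, `M : Model K F` (helper15's F1 interface: a smooth proper curve
`M.c : M.C ⟶ Spec K` with two affine charts `U0`, `U1` whose rings are identified with the
subalgebras `M.alg.B0`, `M.alg.B1` of `F`).

* `pointOfAlgHom0_evalAlg0`, `evalAlg0_pointOfAlgHom0` (and `1`): on an affine chart, `K`-points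
  and `K`-algebra homomorphisms `Γ(U) → K` correspond (complements to `Jac/CurveHyp80/Points`);
* `kpointChartEquiv cc : KPoint ≃ (cc.B0 →ₐ[K] K) ⊕ {P1 : cc.B1 →ₐ[K] K // P1 s = 0}`;
* `pointPlaceEquiv M : KPoint M ≃ Place K F`  — **(i)**;
* `mem_U0_iff : x ∈ U0 ↔ t ∈ O_(place of x)`, `mem_U1_iff`;
* `isVal_of_mem_U0 : IsVal (place of x) b (value of (M.e0 b) at x)` for `b ∈ M.alg.B0`, `x ∈ U0`
  and `isVal_of_mem_U1` for `b ∈ M.alg.B1`, `x ∈ U1` (also on the overlap) — **(ii)**;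
* `symm_mem_U0`, `evalAlg0_symm` (and `1`): the `K`-point of a place lies in the chart where the
  coordinate is regular, and its evaluation there is the residue homomorphism of the place;
* `t_not_mem_base`: the base point `ε` of the model is a pole of `t`;
* `isVal_t : IsVal (place of x) M.alg.t (value of the coordinate t at x)` — **(iii)**.
-/
import Mathlib
import Fermat.Agent.AV.F1Model15.AssemblyAlg
import Fermat.Agent.Jac.CurveHyp80.Points
import Fermat.Agent.MW.Bridge34.ChartPlaces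

set_option autoImplicit false
set_option linter.unusedSectionVars false
set_option linter.style.haveILetI false

open CategoryTheory CategoryTheory.Limits AlgebraicGeometry TopologicalSpace Opposite
open NeronModelInfra AlgebraicCurve
open Fermat.Agent.Jac Fermat.Agent.Jac.CurveHyp80 Fermat.Agent.Jac.TwoCoverGammaSetting
open Fermat.Agent.AV.F1Model15

universe u

noncomputable section

namespace Fermat.Agent.MW.Bridge34

/-! ### `K`-points of an affine chart -/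

section Generic

variable {k : Type u} [Field k] {C : Scheme.{u}} {c : C ⟶ Spec (CommRingCat.of k)}

/-- A `k`-point lying in an affine open `U` is the point defined by its evaluation on `U`. -/
theorem pointOfRingHom_evalAt (x : SchemeHomOver (𝟙 (Spec (CommRingCat.of k))) c) {U : C.Opens}
    (hU : IsAffineOpen U) (hx : x.1 ⁻¹ᵁ U = ⊤) :
    pointOfRingHom c hU (evalAt x U hx) (evalAt_sectionsRingHom x U hx) = x := by
  apply Subtype.ext
  show Spec.map (CommRingCat.ofHom (evalAt x U hx)) ≫ hU.fromSpec = x.1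
  have h1 : CommRingCat.ofHom (evalAt x U hx) =
      x.1.appLE U ⊤ (by rw [hx]) ≫ (Scheme.ΓSpecIso (CommRingCat.of k)).hom := rfl
  rw [h1, Spec.map_comp, Category.assoc,
    IsAffineOpen.SpecMap_appLE_fromSpec x.1 hU (isAffineOpen_top _) (by rw [hx]),
    IsAffineOpen.fromSpec_top, Scheme.isoSpec_Spec_inv, ← Category.assoc, ← Spec.map_comp,
    Iso.inv_hom_id, Spec.map_id, Category.id_comp]

/-- Two `k`-algebra homomorphisms to `k` with the same kernel are equal. -/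
theorem algHom_ext_of_ker_eq' {R : Type u} [CommRing R] [Algebra k R] {P P' : R →ₐ[k] k}
    (h : RingHom.ker P = RingHom.ker P') : P = P' := by
  ext b
  have h1 : b - algebraMap k R (P b) ∈ RingHom.ker P := by
    rw [RingHom.mem_ker, map_sub, AlgHom.commutes]
    exact sub_self _
  rw [h, RingHom.mem_ker, map_sub, AlgHom.commutes, sub_eq_zero] at h1
  exact h1.symm

end Generic

/-! ### The two charts of a curve -/

section Curve

variable {k : Type u} [Field k] {C : Scheme.{u}} {c : C ⟶ Spec (CommRingCat.of k)}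
  {ε : SchemeHomOver (𝟙 (Spec (CommRingCat.of k))) c} (cc : CurveCharts c ε)

theorem pointOfAlgHom0_evalAlg0 (x : SchemeHomOver (𝟙 (Spec (CommRingCat.of k))) c)
    (h0 : x.1 ⁻¹ᵁ cc.U0 = ⊤) : pointOfAlgHom0 cc (evalAlg0 cc x h0) = x :=
  pointOfRingHom_evalAt x cc.affine0 h0

theorem pointOfAlgHom1_evalAlg1 (x : SchemeHomOver (𝟙 (Spec (CommRingCat.of k))) c)
    (h1 : x.1 ⁻¹ᵁ cc.U1 = ⊤) : pointOfAlgHom1 cc (evalAlg1 cc x h1) = x :=
  pointOfRingHom_evalAt x cc.affine1 h1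

theorem evalAlg0_pointOfAlgHom0 (φ : cc.B0 →ₐ[k] k) :
    evalAlg0 cc (pointOfAlgHom0 cc φ) (pointOfAlgHom0_mem cc φ) = φ := by
  apply algHom_ext_of_ker_eq'
  rw [← I0_eq_ker cc _ (pointOfAlgHom0_mem cc φ), I0_pointOfAlgHom0]

theorem evalAlg1_pointOfAlgHom1 (φ : cc.B1 →ₐ[k] k) :
    evalAlg1 cc (pointOfAlgHom1 cc φ) (pointOfAlgHom1_mem cc φ) = φ := by
  apply algHom_ext_of_ker_eq'
  rw [← I1_eq_ker cc _ (pointOfAlgHom1_mem cc φ), I1_pointOfAlgHom1]

/-- At a point of the overlap the coordinate `s` does not vanish. -/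
theorem evalAlg1_s_ne_zero (x : SchemeHomOver (𝟙 (Spec (CommRingCat.of k))) c)
    (h0 : x.1 ⁻¹ᵁ cc.U0 = ⊤) (h1 : x.1 ⁻¹ᵁ cc.U1 = ⊤) : evalAlg1 cc x h1 cc.chart0.s ≠ 0 := by
  intro h
  have hts := congrArg (evalAlg01 cc x h0 h1) cc.chart0.ts
  rw [map_mul, evalAlg01_algebraMap0, evalAlg01_algebraMap1, h, mul_zero, map_one] at hts
  exact zero_ne_one hts

/-- At a point outside the first chart the coordinate `s` vanishes. -/
theorem evalAlg1_s_eq_zero (x : SchemeHomOver (𝟙 (Spec (CommRingCat.of k))) c)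
    (h0 : x.1 ⁻¹ᵁ cc.U0 = ⊥) (h1 : x.1 ⁻¹ᵁ cc.U1 = ⊤) : evalAlg1 cc x h1 cc.chart0.s = 0 :=
  (mem_I1_iff cc x h1 _).mp (s_mem_I1 cc x h0)

theorem preimage_U0_eq_top_iff (x : SchemeHomOver (𝟙 (Spec (CommRingCat.of k))) c)
    (h1 : x.1 ⁻¹ᵁ cc.U1 = ⊤) : x.1 ⁻¹ᵁ cc.U0 = ⊤ ↔ evalAlg1 cc x h1 cc.chart0.s ≠ 0 := by
  constructor
  · intro h0
    exact evalAlg1_s_ne_zero cc x h0 h1
  · intro h
    rcases preimage_eq_top_or_bot x cc.U0 with h0 | h0
    · exact h0
    · exact absurd (evalAlg1_s_eq_zero cc x h0 h1) h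

theorem preimage_U1_of_not_U0 (x : SchemeHomOver (𝟙 (Spec (CommRingCat.of k))) c)
    (h0 : ¬ x.1 ⁻¹ᵁ cc.U0 = ⊤) : x.1 ⁻¹ᵁ cc.U1 = ⊤ :=
  (mem_U0_or_mem_U1 cc x).resolve_left h0

open Classical in
/-- The chart description of a `k`-point: its evaluation on `U0` if it lies there, on `U1`
otherwise. -/
def pointToChart (x : SchemeHomOver (𝟙 (Spec (CommRingCat.of k))) c) :
    (cc.B0 →ₐ[k] k) ⊕ {P1 : cc.B1 →ₐ[k] k // P1 cc.chart0.s = 0} :=
  if h0 : x.1 ⁻¹ᵁ cc.U0 = ⊤ then Sum.inl (evalAlg0 cc x h0)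
  else Sum.inr ⟨evalAlg1 cc x (preimage_U1_of_not_U0 cc x h0), by
    by_contra h
    exact h0 ((preimage_U0_eq_top_iff cc x _).mpr h)⟩

theorem pointToChart_of_mem (x : SchemeHomOver (𝟙 (Spec (CommRingCat.of k))) c)
    (h0 : x.1 ⁻¹ᵁ cc.U0 = ⊤) : pointToChart cc x = Sum.inl (evalAlg0 cc x h0) := by
  unfold pointToChart
  rw [dif_pos h0]

theorem pointToChart_of_not_mem (x : SchemeHomOver (𝟙 (Spec (CommRingCat.of k))) c)
    (h0 : ¬ x.1 ⁻¹ᵁ cc.U0 = ⊤) :
    ∃ h, pointToChart cc x = Sum.inr ⟨evalAlg1 cc x (preimage_U1_of_not_U0 cc x h0), h⟩ := by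
  unfold pointToChart
  rw [dif_neg h0]
  exact ⟨_, rfl⟩

/-- **The `k`-points of the curve are the `k`-points of the first chart together with the
`k`-points of the second chart at which `s` vanishes.** -/
def kpointChartEquiv :
    SchemeHomOver (𝟙 (Spec (CommRingCat.of k))) c ≃
      (cc.B0 →ₐ[k] k) ⊕ {P1 : cc.B1 →ₐ[k] k // P1 cc.chart0.s = 0} where
  toFun := pointToChart cc
  invFun := Sum.elim (pointOfAlgHom0 cc) (fun P1 => pointOfAlgHom1 cc P1.1)
  left_inv x := by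
    by_cases h0 : x.1 ⁻¹ᵁ cc.U0 = ⊤
    · rw [pointToChart_of_mem cc x h0]
      exact pointOfAlgHom0_evalAlg0 cc x h0
    · obtain ⟨h, e⟩ := pointToChart_of_not_mem cc x h0
      rw [e]
      exact pointOfAlgHom1_evalAlg1 cc x _
  right_inv := by
    rintro (φ | ⟨φ, hφ⟩)
    · show pointToChart cc (pointOfAlgHom0 cc φ) = Sum.inl φ
      rw [pointToChart_of_mem cc _ (pointOfAlgHom0_mem cc φ), evalAlg0_pointOfAlgHom0]
    · show pointToChart cc (pointOfAlgHom1 cc φ) = Sum.inr ⟨φ, hφ⟩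
      have h0 : ¬ (pointOfAlgHom1 cc φ).1 ⁻¹ᵁ cc.U0 = ⊤ := by
        rw [preimage_U0_eq_top_iff cc _ (pointOfAlgHom1_mem cc φ), not_not,
          evalAlg1_pointOfAlgHom1]
        exact hφ
      obtain ⟨h, e⟩ := pointToChart_of_not_mem cc _ h0
      rw [e]
      congr 1
      exact Subtype.ext (evalAlg1_pointOfAlgHom1 cc φ)

end Curve

/-! ### The model curve of a function field -/

section Model

variable {K F : Type u} [Field K] [Field F] [Algebra K F] [IsAlgClosed K] (M : Model K F)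

/-- The `K`-points of the model curve. -/
abbrev KPoint : Type u := SchemeHomOver (𝟙 (Spec (CommRingCat.of K))) M.c

/-- The `K`-points of the two descriptions of the first chart ring. -/
def homEquiv0 : (M.cc.B0 →ₐ[K] K) ≃ (M.alg.B0 →ₐ[K] K) where
  toFun φ := φ.comp (M.e0 : M.alg.B0 →ₐ[K] M.cc.B0)
  invFun P := P.comp (M.e0.symm : M.cc.B0 →ₐ[K] M.alg.B0)
  left_inv φ := by
    ext b
    simp
  right_inv P := by
    ext b
    simp

@[simp] theorem homEquiv0_apply (φ : M.cc.B0 →ₐ[K] K) (b : M.alg.B0) :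
    homEquiv0 M φ b = φ (M.e0 b) := rfl

theorem e1_s1 : M.e1 M.alg.s1 = M.cc.chart0.s := M.e1_s

theorem e0_t0 : M.e0 M.alg.t0 = M.cc.chart0.t := M.e0_t

/-- The `K`-points of the two descriptions of the second chart ring at which `s` vanishes. -/
def homEquiv1 : {P1 : M.cc.B1 →ₐ[K] K // P1 M.cc.chart0.s = 0} ≃
    {P1 : M.alg.B1 →ₐ[K] K // P1 M.alg.s1 = 0} where
  toFun φ := ⟨φ.1.comp (M.e1 : M.alg.B1 →ₐ[K] M.cc.B1), by
    show φ.1 (M.e1 M.alg.s1) = 0
    rw [e1_s1]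
    exact φ.2⟩
  invFun P := ⟨P.1.comp (M.e1.symm : M.cc.B1 →ₐ[K] M.alg.B1), by
    show P.1 (M.e1.symm M.cc.chart0.s) = 0
    rw [← e1_s1, AlgEquiv.symm_apply_apply]
    exact P.2⟩
  left_inv φ := by
    apply Subtype.ext
    ext b
    simp
  right_inv P := by
    apply Subtype.ext
    ext b
    simp

/-- **(i) The `K`-points of the model curve of `F` are the places of `F`.** -/
def pointPlaceEquiv : KPoint M ≃ Place K F :=
  (kpointChartEquiv M.cc).trans
    ((Equiv.sumCongr (homEquiv0 M) (homEquiv1 M)).trans (chartPlaceEquiv M.alg))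

/-- The residue homomorphism on `M.alg.B0` of a `K`-point of the first chart. -/
def pointHom0 (x : KPoint M) (h0 : x.1 ⁻¹ᵁ M.cc.U0 = ⊤) : M.alg.B0 →ₐ[K] K :=
  (evalAlg0 M.cc x h0).comp (M.e0 : M.alg.B0 →ₐ[K] M.cc.B0)

/-- The residue homomorphism on `M.alg.B1` of a `K`-point of the second chart. -/
def pointHom1 (x : KPoint M) (h1 : x.1 ⁻¹ᵁ M.cc.U1 = ⊤) : M.alg.B1 →ₐ[K] K :=
  (evalAlg1 M.cc x h1).comp (M.e1 : M.alg.B1 →ₐ[K] M.cc.B1)

/-- The residue homomorphism on `M.alg.B01` of a `K`-point of the overlap. -/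
def pointHom01 (x : KPoint M) (h0 : x.1 ⁻¹ᵁ M.cc.U0 = ⊤) (h1 : x.1 ⁻¹ᵁ M.cc.U1 = ⊤) :
    M.alg.B01 →ₐ[K] K :=
  (evalAlg01 M.cc x h0 h1).comp (M.e01 : M.alg.B01 →ₐ[K] M.cc.B01)

@[simp] theorem pointHom0_apply (x : KPoint M) (h0 : x.1 ⁻¹ᵁ M.cc.U0 = ⊤) (b : M.alg.B0) :
    pointHom0 M x h0 b = evalAlg0 M.cc x h0 (M.e0 b) := rfl

@[simp] theorem pointHom1_apply (x : KPoint M) (h1 : x.1 ⁻¹ᵁ M.cc.U1 = ⊤) (b : M.alg.B1) :
    pointHom1 M x h1 b = evalAlg1 M.cc x h1 (M.e1 b) := rfl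

theorem pointHom01_incl0 (x : KPoint M) (h0 : x.1 ⁻¹ᵁ M.cc.U0 = ⊤) (h1 : x.1 ⁻¹ᵁ M.cc.U1 = ⊤)
    (b : M.alg.B0) :
    pointHom01 M x h0 h1 (Subalgebra.inclusion M.alg.le0 b) = pointHom0 M x h0 b := by
  show evalAlg01 M.cc x h0 h1 (M.e01 (Subalgebra.inclusion M.alg.le0 b)) = _
  rw [M.e01_res0, evalAlg01_algebraMap0]
  rfl

theorem pointHom01_incl1 (x : KPoint M) (h0 : x.1 ⁻¹ᵁ M.cc.U0 = ⊤) (h1 : x.1 ⁻¹ᵁ M.cc.U1 = ⊤)
    (b : M.alg.B1) :
    pointHom01 M x h0 h1 (Subalgebra.inclusion M.alg.le1 b) = pointHom1 M x h1 b := by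
  show evalAlg01 M.cc x h0 h1 (M.e01 (Subalgebra.inclusion M.alg.le1 b)) = _
  rw [M.e01_res1, evalAlg01_algebraMap1]
  rfl

/-- The place of a `K`-point of the first chart. -/
theorem pointPlaceEquiv_of_mem_U0 (x : KPoint M) (h0 : x.1 ⁻¹ᵁ M.cc.U0 = ⊤) :
    pointPlaceEquiv M x = place0 M.alg (pointHom0 M x h0) := by
  show chartPlaceEquiv M.alg (Equiv.sumCongr (homEquiv0 M) (homEquiv1 M)
    (pointToChart M.cc x)) = _
  rw [pointToChart_of_mem M.cc x h0]
  rfl

/-- The place of a `K`-point outside the first chart. -/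
theorem pointPlaceEquiv_of_not_mem_U0 (x : KPoint M) (h0 : ¬ x.1 ⁻¹ᵁ M.cc.U0 = ⊤) :
    pointPlaceEquiv M x = place1 M.alg (pointHom1 M x (preimage_U1_of_not_U0 M.cc x h0)) := by
  show chartPlaceEquiv M.alg (Equiv.sumCongr (homEquiv0 M) (homEquiv1 M)
    (pointToChart M.cc x)) = _
  obtain ⟨h, e⟩ := pointToChart_of_not_mem M.cc x h0
  rw [e]
  rfl

/-- The place of a `K`-point of the second chart (also on the overlap). -/
theorem pointPlaceEquiv_of_mem_U1 (x : KPoint M) (h1 : x.1 ⁻¹ᵁ M.cc.U1 = ⊤) :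
    pointPlaceEquiv M x = place1 M.alg (pointHom1 M x h1) := by
  by_cases h0 : x.1 ⁻¹ᵁ M.cc.U0 = ⊤
  · rw [pointPlaceEquiv_of_mem_U0 M x h0]
    exact place0_eq_place1_of_overlap M.alg _ _ (pointHom01 M x h0 h1)
      (pointHom01_incl0 M x h0 h1) (pointHom01_incl1 M x h0 h1)
  · exact pointPlaceEquiv_of_not_mem_U0 M x h0

/-- **(ii) Values, first chart**: the value of `b ∈ B0` at the `K`-point `x ∈ U0` is its value at
the place of `x`. -/
theorem isVal_of_mem_U0 (x : KPoint M) (h0 : x.1 ⁻¹ᵁ M.cc.U0 = ⊤) (b : M.alg.B0) :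
    IsVal (pointPlaceEquiv M x) (b : F) (evalAlg0 M.cc x h0 (M.e0 b)) := by
  rw [pointPlaceEquiv_of_mem_U0 M x h0]
  exact isVal_place0 M.alg (pointHom0 M x h0) b

/-- **(ii) Values, second chart.** -/
theorem isVal_of_mem_U1 (x : KPoint M) (h1 : x.1 ⁻¹ᵁ M.cc.U1 = ⊤) (b : M.alg.B1) :
    IsVal (pointPlaceEquiv M x) (b : F) (evalAlg1 M.cc x h1 (M.e1 b)) := by
  rw [pointPlaceEquiv_of_mem_U1 M x h1]
  exact isVal_place1 M.alg (pointHom1 M x h1) b

/-- **(iii) The value of the coordinate `t`** at a `K`-point of the first chart. -/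
theorem isVal_t (x : KPoint M) (h0 : x.1 ⁻¹ᵁ M.cc.U0 = ⊤) :
    IsVal (pointPlaceEquiv M x) M.alg.t (evalAlg0 M.cc x h0 M.cc.chart0.t) := by
  have := isVal_of_mem_U0 M x h0 M.alg.t0
  rwa [e0_t0] at this

/-- The value of `s = 1/t` at a `K`-point of the second chart. -/
theorem isVal_s (x : KPoint M) (h1 : x.1 ⁻¹ᵁ M.cc.U1 = ⊤) :
    IsVal (pointPlaceEquiv M x) M.alg.t⁻¹ (evalAlg1 M.cc x h1 M.cc.chart0.s) := by
  have := isVal_of_mem_U1 M x h1 M.alg.s1
  rwa [e1_s1] at this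

/-- A `K`-point lies in the first chart iff `t` is regular at its place. -/
theorem mem_U0_iff (x : KPoint M) :
    x.1 ⁻¹ᵁ M.cc.U0 = ⊤ ↔ M.alg.t ∈ (pointPlaceEquiv M x).toValuationSubring := by
  constructor
  · intro h0
    exact (isVal_t M x h0).mem
  · intro ht
    by_contra h0
    have h1 := preimage_U1_of_not_U0 M.cc x h0
    rw [pointPlaceEquiv_of_mem_U1 M x h1, t_mem_place1_iff, pointHom1_apply, e1_s1] at ht
    exact h0 ((preimage_U0_eq_top_iff M.cc x h1).mpr ht)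

/-- At a point of the overlap the coordinate `t` does not vanish. -/
theorem evalAlg0_t_ne_zero (x : KPoint M) (h0 : x.1 ⁻¹ᵁ M.cc.U0 = ⊤)
    (h1 : x.1 ⁻¹ᵁ M.cc.U1 = ⊤) : evalAlg0 M.cc x h0 M.cc.chart0.t ≠ 0 := by
  intro h
  have hts := congrArg (evalAlg01 M.cc x h0 h1) M.cc.chart0.ts
  rw [map_mul, evalAlg01_algebraMap0, evalAlg01_algebraMap1, h, zero_mul, map_one] at hts
  exact zero_ne_one hts

/-- A `K`-point lies in the second chart iff `1/t` is regular at its place. -/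
theorem mem_U1_iff (x : KPoint M) :
    x.1 ⁻¹ᵁ M.cc.U1 = ⊤ ↔ M.alg.t⁻¹ ∈ (pointPlaceEquiv M x).toValuationSubring := by
  constructor
  · intro h1
    exact (isVal_s M x h1).mem
  · intro hs
    rcases preimage_eq_top_or_bot x M.cc.U1 with h1 | h1
    · exact h1
    · exfalso
      have h0 : x.1 ⁻¹ᵁ M.cc.U0 = ⊤ := by
        rcases mem_U0_or_mem_U1 M.cc x with h | h
        · exact h
        · rw [h] at h1
          exact absurd h1 top_ne_bot_Spec_field
      rw [pointPlaceEquiv_of_mem_U0 M x h0, inv_mem_place0_iff, pointHom0_apply, e0_t0] at hs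
      exact hs ((mem_I0_iff M.cc x h0 _).mp (t_mem_I0 M.cc x h1))

/-- The `K`-point of a place at which `t` is regular lies in the first chart, and its evaluation
is the residue homomorphism of the place. -/
theorem symm_mem_U0 (v : Place K F) (ht : M.alg.t ∈ v.toValuationSubring) :
    ((pointPlaceEquiv M).symm v).1 ⁻¹ᵁ M.cc.U0 = ⊤ := by
  rw [mem_U0_iff, Equiv.apply_symm_apply]
  exact ht

theorem evalAlg0_symm (v : Place K F) (ht : M.alg.t ∈ v.toValuationSubring) (b : M.alg.B0) :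
    evalAlg0 M.cc ((pointPlaceEquiv M).symm v) (symm_mem_U0 M v ht) (M.e0 b) =
      hom0 M.alg v ht b := by
  have h1 := isVal_of_mem_U0 M ((pointPlaceEquiv M).symm v) (symm_mem_U0 M v ht) b
  rw [Equiv.apply_symm_apply] at h1
  exact h1.unique (isVal_hom0 M.alg v ht b)

theorem symm_mem_U1 (v : Place K F) (hs : M.alg.t⁻¹ ∈ v.toValuationSubring) :
    ((pointPlaceEquiv M).symm v).1 ⁻¹ᵁ M.cc.U1 = ⊤ := by
  rw [mem_U1_iff, Equiv.apply_symm_apply]
  exact hs

theorem evalAlg1_symm (v : Place K F) (hs : M.alg.t⁻¹ ∈ v.toValuationSubring) (b : M.alg.B1) :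
    evalAlg1 M.cc ((pointPlaceEquiv M).symm v) (symm_mem_U1 M v hs) (M.e1 b) =
      hom1 M.alg v hs b := by
  have h1 := isVal_of_mem_U1 M ((pointPlaceEquiv M).symm v) (symm_mem_U1 M v hs) b
  rw [Equiv.apply_symm_apply] at h1
  exact h1.unique (isVal_hom1 M.alg v hs b)

/-- The base point `ε` of the model is a pole of `t`. -/
theorem t_not_mem_base : M.alg.t ∉ (pointPlaceEquiv M M.ε).toValuationSubring := by
  rw [← mem_U0_iff]
  intro h0
  have h1 : M.ε.1 ⁻¹ᵁ M.cc.U1 = ⊤ := M.cc.base_mem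
  refine evalAlg1_s_ne_zero M.cc M.ε h0 h1 ?_
  exact M.cc.P0_s

end Model

end Fermat.Agent.MW.Bridge34
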