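/-
Programme MW (S17), brick NC-B T6 (helper34): **values of the coordinate on fibre powers.**

helper10's `germVal v U hU : Γ(X, U) →+* E` (value of a section at a field-valued point,
`MW/NorthB10/GermVal.lean`) versus helper80's `evalAt x U hx` (evaluation at a `k`-point of a curve
over `k`, `Jac/CurveHyp80/Points.lean`), and the consequence for the model curve `M : Model K F`:

* `germVal_eq_evalAt : germVal x.1 U hU a = evalAt x U hx a`;
* `germVal_res_app_eq_evalAt` : for `g : X ⟶ C`, `w : Spec k ⟶ X` with `w ≫ g` a `k`-point of `C`,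
  `X₀ ≤ g ⁻¹ᵁ U`: `germVal w X₀ _ (res (g.app U a)) = evalAt ⟨w ≫ g, _⟩ U _ a`;
* `isVal_germVal_t` : for the model curve, the value at `w` of the pull-back of the coordinate `t`
  along `g` is the value of `t ∈ F` at the place of the `K`-point `w ≫ g`.
-/
import Mathlib
import Fermat.Agent.MW.NorthB10.GermVal
import Fermat.Agent.MW.Bridge34.ModelPoints

set_option autoImplicit false
set_option linter.unusedSectionVars false
set_option linter.style.haveILetI false

open CategoryTheory CategoryTheory.Limits AlgebraicGeometry TopologicalSpace Opposite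
open NeronModelInfra AlgebraicCurve
open Fermat.Agent.Jac Fermat.Agent.Jac.CurveHyp80 Fermat.Agent.Jac.TwoCoverGammaSetting
open Fermat.Agent.AV.F1Model15 Fermat.Agent.MW.NorthB10

universe u

noncomputable section

namespace Fermat.Agent.MW.Bridge34

section Generic

variable {k : Type u} [Field k] {C : Scheme.{u}} {c : C ⟶ Spec (CommRingCat.of k)}

/-- A field-valued point whose closed point lies in `U` factors through `U`. -/
theorem preimage_eq_top_of_mem {X : Scheme.{u}} (v : Spec (CommRingCat.of k) ⟶ X) (U : X.Opens)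
    (hU : v (IsLocalRing.closedPoint k) ∈ U) : v ⁻¹ᵁ U = ⊤ :=
  Scheme.preimage_eq_top_of_closedPoint_mem v hU

/-- Conversely. -/
theorem mem_of_preimage_eq_top {X : Scheme.{u}} (v : Spec (CommRingCat.of k) ⟶ X) (U : X.Opens)
    (hx : v ⁻¹ᵁ U = ⊤) : v (IsLocalRing.closedPoint k) ∈ U := by
  have h : IsLocalRing.closedPoint k ∈ v ⁻¹ᵁ U := by
    rw [hx]
    trivial
  exact h

/-- **`germVal` is `evalAt`.** -/
theorem germVal_eq_evalAt (x : SchemeHomOver (𝟙 (Spec (CommRingCat.of k))) c) (U : C.Opens)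
    (hx : x.1 ⁻¹ᵁ U = ⊤) (hU : x.1 (IsLocalRing.closedPoint k) ∈ U) (a : Γ(C, U)) :
    germVal x.1 U hU a = evalAt x U hx a := by
  rw [germVal_apply]
  have h := Scheme.germ_stalkClosedPointTo x.1 U hU
  have h2 := congrArg (fun φ => φ.hom a) h
  simp only [CommRingCat.hom_comp, RingHom.comp_apply] at h2
  rw [h2]
  rfl

/-- The value at `w` of the pull-back along `g` of a section over `U`. -/
theorem germVal_res_app_eq_evalAt {X : Scheme.{u}} (w : Spec (CommRingCat.of k) ⟶ X)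
    (g : X ⟶ C) (hwg : (w ≫ g) ≫ c = 𝟙 _) (U : C.Opens) (X₀ : X.Opens)
    (hle : X₀ ≤ g ⁻¹ᵁ U) (hw : w (IsLocalRing.closedPoint k) ∈ X₀) (a : Γ(C, U)) :
    germVal w X₀ hw ((X.presheaf.map (homOfLE hle).op).hom ((g.app U).hom a)) =
      evalAt (⟨w ≫ g, hwg⟩ : SchemeHomOver (𝟙 (Spec (CommRingCat.of k))) c) U
        (preimage_eq_top_of_mem (w ≫ g) U (hle hw)) a := by
  rw [germVal_res w hle hw, ← germVal_comp w g U (hle hw) a]
  exact germVal_eq_evalAt (⟨w ≫ g, hwg⟩ : SchemeHomOver (𝟙 (Spec (CommRingCat.of k))) c) U _ _ a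

end Generic

/-! ### The model curve -/

section Model

variable {K F : Type u} [Field K] [Field F] [Algebra K F] [IsAlgClosed K] (M : Model K F)

/-- The coordinate of the first chart, as a section over `U0`. -/
theorem chart0_t_eq : M.cc.chart0.t = M.cc.t := rfl

/-- **T6, general form**: the value at `w` of the pull-back along `g : X ⟶ M.C` of the function
`b ∈ M.alg.B0` of the first chart is the value of `b ∈ F` at the place of the `K`-point `w ≫ g`. -/
theorem isVal_germVal {X : Scheme.{u}} (w : Spec (CommRingCat.of K) ⟶ X) (g : X ⟶ M.C)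
    (hwg : (w ≫ g) ≫ M.c = 𝟙 _) (X₀ : X.Opens) (hle : X₀ ≤ g ⁻¹ᵁ M.cc.U0)
    (hw : w (IsLocalRing.closedPoint K) ∈ X₀) (b : M.alg.B0) :
    IsVal (pointPlaceEquiv M ⟨w ≫ g, hwg⟩) (b : F)
      (germVal w X₀ hw ((X.presheaf.map (homOfLE hle).op).hom
        ((g.app M.cc.U0).hom (show Γ(M.C, M.cc.U0) from M.e0 b)))) := by
  have h := germVal_res_app_eq_evalAt w g hwg M.cc.U0 X₀ hle hw (show Γ(M.C, M.cc.U0) from M.e0 b)
  have h2 := isVal_of_mem_U0 M ⟨w ≫ g, hwg⟩ (preimage_eq_top_of_mem (w ≫ g) M.cc.U0 (hle hw)) b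
  exact (congrArg (fun c => IsVal (pointPlaceEquiv M ⟨w ≫ g, hwg⟩) (b : F) c) h).mpr h2

/-- **T6**: the value at `w` of the pull-back along `g : X ⟶ M.C` of the coordinate `t` is the
value of `t ∈ F` at the place of the `K`-point `w ≫ g`. -/
theorem isVal_germVal_t {X : Scheme.{u}} (w : Spec (CommRingCat.of K) ⟶ X) (g : X ⟶ M.C)
    (hwg : (w ≫ g) ≫ M.c = 𝟙 _) (X₀ : X.Opens) (hle : X₀ ≤ g ⁻¹ᵁ M.cc.U0)
    (hw : w (IsLocalRing.closedPoint K) ∈ X₀) :
    IsVal (pointPlaceEquiv M ⟨w ≫ g, hwg⟩) M.alg.t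
      (germVal w X₀ hw ((X.presheaf.map (homOfLE hle).op).hom
        ((g.app M.cc.U0).hom M.cc.t))) := by
  have h := germVal_res_app_eq_evalAt w g hwg M.cc.U0 X₀ hle hw M.cc.t
  have h2 := isVal_t M ⟨w ≫ g, hwg⟩ (preimage_eq_top_of_mem (w ≫ g) M.cc.U0 (hle hw))
  exact (congrArg (fun c => IsVal (pointPlaceEquiv M ⟨w ≫ g, hwg⟩) M.alg.t c) h).mpr h2

/-- The same as an equation with the evaluation homomorphism of the first chart. -/
theorem germVal_t_eq_evalAlg0 {X : Scheme.{u}} (w : Spec (CommRingCat.of K) ⟶ X) (g : X ⟶ M.C)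
    (hwg : (w ≫ g) ≫ M.c = 𝟙 _) (X₀ : X.Opens) (hle : X₀ ≤ g ⁻¹ᵁ M.cc.U0)
    (hw : w (IsLocalRing.closedPoint K) ∈ X₀) :
    germVal w X₀ hw ((X.presheaf.map (homOfLE hle).op).hom ((g.app M.cc.U0).hom M.cc.t)) =
      evalAlg0 M.cc (⟨w ≫ g, hwg⟩ : KPoint M)
        (preimage_eq_top_of_mem (w ≫ g) M.cc.U0 (hle hw)) M.cc.chart0.t :=
  germVal_res_app_eq_evalAt w g hwg M.cc.U0 X₀ hle hw M.cc.t

/-- The place of `w ≫ g` is not a pole of `t` as soon as `w` lies over the first chart. -/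
theorem t_mem_of_mem {X : Scheme.{u}} (w : Spec (CommRingCat.of K) ⟶ X) (g : X ⟶ M.C)
    (hwg : (w ≫ g) ≫ M.c = 𝟙 _) (hw : (w ≫ g) (IsLocalRing.closedPoint K) ∈ M.cc.U0) :
    M.alg.t ∈ (pointPlaceEquiv M ⟨w ≫ g, hwg⟩).toValuationSubring :=
  (mem_U0_iff M ⟨w ≫ g, hwg⟩).mp (preimage_eq_top_of_mem (w ≫ g) M.cc.U0 hw)

end Model

end Fermat.Agent.MW.Bridge34
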