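/-
Programme MW (S17), brick BR+a (helper34), file 4: **the point pair of the place of a `K`-point.**

For `M : Model K F` and a `K`-point `σ` of the model curve, the place `pointPlaceEquiv M σ` of
`ModelPoints.lean` has point pair (helper84's `Chart.X`) equal to the ideal pair
`CurveHyp80.pointPairK M.cc K σ` of the point.  Hence it IS helper15's `placeOfPoint M σ`
(`MW/Bridge15/AJModel.lean`), and `placeBase M` is the place of the base point `M.ε`.

* `X_pointPlaceEquiv : X (M.cc.chartA K) (pointPlaceEquiv M σ) = pointPairK M.cc K σ`;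
* `X_pointPlaceEquiv_base : X (M.cc.chartA K) (pointPlaceEquiv M M.ε) = P0pairK M.cc K`;
* `placeOfPoint_eq : placeOfPoint M σ = pointPlaceEquiv M σ`;
* `placeBase_eq : placeBase M = pointPlaceEquiv M M.ε`, `t_not_mem_placeBase`.
-/
import Mathlib
import Fermat.Agent.MW.Bridge15.AJModel
import Fermat.Agent.MW.Bridge34.ModelPoints

set_option autoImplicit false
set_option linter.unusedSectionVars false
set_option linter.style.haveILetI false

noncomputable section

universe u

open CategoryTheory CategoryTheory.Limits AlgebraicGeometry AlgebraicGeometry.RelPicard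
  NeronModelInfra GoodReductionJacobian TensorProduct AlgebraicCurve IsDedekindDomain

namespace Fermat.Agent.MW.Bridge34

open scoped Fermat.Agent.Jac.BaseChange75
open Fermat.Agent.Jac Fermat.Agent.Jac.AbelJacobi73 Fermat.Agent.Jac.BridgeK84
  Fermat.Agent.Jac.FinalWiring41 Fermat.Agent.Jac.LineOps39 Fermat.Agent.AV.F1Model15
  Fermat.Agent.AV.PicBridge84.Places Fermat.Agent.AV.PicBridge84.Chart
  Fermat.Agent.AV.PicBridge84.ModelGlue Fermat.Agent.AV.PicBridge84
  Fermat.Agent.Jac.CurveHyp80 Fermat.Agent.Jac.TwoCoverGammaSetting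

variable {K F : Type u} [Field K] [Field F] [Algebra K F] [IsAlgClosed K] (M : Model K F)

attribute [local instance] algF0 algF1 algF01

attribute [local instance] Iso.ded0 Iso.ded1 Iso.dom01 isFractionRing0 isFractionRing1 tower_K0
  tower_K1 tower_0_01 tower_1_01

/-- The place of a `K`-point of the first chart contains the first tensor chart. -/
theorem contains0_of_mem_U0 (x : KPoint M) (h0 : x.1 ⁻¹ᵁ M.cc.U0 = ⊤) :
    Contains (pointPlaceEquiv M x) (K ⊗[K] M.cc.B0) := by
  intro y
  rw [algebraMap0_apply]
  exact (isVal_of_mem_U0 M x h0 ((E0 M).symm y)).mem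

/-- The place of a `K`-point of the second chart contains the second tensor chart. -/
theorem contains1_of_mem_U1 (x : KPoint M) (h1 : x.1 ⁻¹ᵁ M.cc.U1 = ⊤) :
    Contains (pointPlaceEquiv M x) (K ⊗[K] M.cc.B1) := by
  intro y
  rw [algebraMap1_apply]
  exact (isVal_of_mem_U1 M x h1 ((E1 M).symm y)).mem

/-- The centre of the place of a `K`-point of the first chart is the (extended) ideal of the
point. -/
theorem ctr_eq_map_I0 (x : KPoint M) (h0 : x.1 ⁻¹ᵁ M.cc.U0 = ⊤) :
    (ctr (pointPlaceEquiv M x) (contains0_of_mem_U0 M x h0)).asIdeal =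
      (I0 M.cc x).map (incl K K M.cc.B0) := by
  have hmax : ((I0 M.cc x).map (incl K K M.cc.B0)).IsMaximal := by
    rw [I0_eq_ker M.cc x h0]
    exact Ideal.IsMaximal.map_bijective _ (incl_bijective K Function.bijective_id M.cc.B0)
      (ker_algHom_isMaximal _)
  refine (hmax.eq_of_le (ctr _ _).isPrime.ne_top ?_).symm
  rw [Ideal.map_le_iff_le_comap]
  intro b hb
  rw [Ideal.mem_comap, mem_ctr_iff, incl_apply, algebraMap0_apply, E0_symm_tmul]
  have hb' : evalAlg0 M.cc x h0 b = 0 := (mem_I0_iff M.cc x h0 b).mp hb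
  have hv := isVal_of_mem_U0 M x h0 (M.e0.symm b)
  rw [AlgEquiv.apply_symm_apply, hb', isVal_iff_ord, map_zero, sub_zero] at hv
  exact hv

/-- The centre of the place of a `K`-point of the second chart. -/
theorem ctr_eq_map_I1 (x : KPoint M) (h1 : x.1 ⁻¹ᵁ M.cc.U1 = ⊤) :
    (ctr (pointPlaceEquiv M x) (contains1_of_mem_U1 M x h1)).asIdeal =
      (I1 M.cc x).map (incl K K M.cc.B1) := by
  have hmax : ((I1 M.cc x).map (incl K K M.cc.B1)).IsMaximal := by
    rw [I1_eq_ker M.cc x h1]
    exact Ideal.IsMaximal.map_bijective _ (incl_bijective K Function.bijective_id M.cc.B1)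
      (ker_algHom_isMaximal _)
  refine (hmax.eq_of_le (ctr _ _).isPrime.ne_top ?_).symm
  rw [Ideal.map_le_iff_le_comap]
  intro b hb
  rw [Ideal.mem_comap, mem_ctr_iff, incl_apply, algebraMap1_apply, E1_symm_tmul]
  have hb' : evalAlg1 M.cc x h1 b = 0 := (mem_I1_iff M.cc x h1 b).mp hb
  have hv := isVal_of_mem_U1 M x h1 (M.e1.symm b)
  rw [AlgEquiv.apply_symm_apply, hb', isVal_iff_ord, map_zero, sub_zero] at hv
  exact hv

/-- **The point pair of the place of a `K`-point is the ideal pair of the point.** -/
theorem X_pointPlaceEquiv (x : KPoint M) :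
    X (M.cc.chartA K) (pointPlaceEquiv M x) = pointPairK M.cc K x := by
  rcases mem_U0_or_mem_U1 M.cc x with h0 | h1
  · rw [X_of_contains0 (M.cc.chartA K) (contains0_of_mem_U0 M x h0), ctr_eq_map_I0 M x h0,
      pointPairK, pointPair_eq_ofChart0 M.cc x h0, tensorPair_ofChart0 K Function.bijective_id]
  · rw [X_of_contains1 (M.cc.chartA K) (contains1_of_mem_U1 M x h1), ctr_eq_map_I1 M x h1,
      pointPairK, pointPair_eq_ofChart1 M.cc x h1, tensorPair_ofChart1 K Function.bijective_id]

/-- The point pair of the place of the base point. -/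
theorem X_pointPlaceEquiv_base :
    X (M.cc.chartA K) (pointPlaceEquiv M M.ε) = P0pairK M.cc K := by
  rw [X_pointPlaceEquiv, pointPairK_base M.cc K Function.bijective_id]

section Bridge15

variable [IsCurveOver K F]

open Fermat.Agent.MW.Bridge15 in
/-- helper15's place of a `K`-point is the place of `pointPlaceEquiv`. -/
theorem placeOfPoint_eq (x : KPoint M) : placeOfPoint M x = pointPlaceEquiv M x := by
  apply X_injective_model M
  rw [X_placeOfPoint, X_pointPlaceEquiv]

open Fermat.Agent.MW.Bridge15 in
/-- helper15's base place is the place of the base point. -/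
theorem placeBase_eq : placeBase M = pointPlaceEquiv M M.ε := by
  rw [← placeOfPoint_base, placeOfPoint_eq]

open Fermat.Agent.MW.Bridge15 in
/-- The base place is a pole of the coordinate `t`. -/
theorem t_not_mem_placeBase : M.alg.t ∉ (placeBase M).toValuationSubring := by
  rw [placeBase_eq]
  exact t_not_mem_base M

open Fermat.Agent.MW.Bridge15 in
/-- The `K`-point of a place (inverse of helper15's `placeOfPoint`). -/
theorem placeOfPoint_symm (v : Place K F) : placeOfPoint M ((pointPlaceEquiv M).symm v) = v := by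
  rw [placeOfPoint_eq, Equiv.apply_symm_apply]

end Bridge15

end Fermat.Agent.MW.Bridge34
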